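/-
S37 / [R]-INST (helper88), adapter (A): the abstract reduction data `KGauss73.GaussData` consumed by
the abstract Deuring reduction (`Deuring43`), from the [BRIDGE] + [LATTICE] facts in EXACTLY the shape
S18 provides them at a level `M` (`LevelInst29.OF'`, `rhoF'`, `ker_rhoF'`, `const_mem_OF'`,
`rhoF'_const`, `hval_OF'`, `LevelAsm29.LatticeProp`, range of the residue map).

Everything is stated for an arbitrary valued field `(L, A)`, an arbitrary `L`-algebra field `F`
with a valuation subring `O` and a residue map `ρ : O →+* k((q))` with values in an intermediate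
field `Fbar` of `k((q))/k`.
-/
import Mathlib
import Fermat.Agent.S18.KGauss73
import Fermat.Prelude.Def_ModularCurve_LaurentCoeff

set_option autoImplicit false
set_option linter.unusedSectionVars false
set_option linter.style.haveILetI false

noncomputable section

namespace Fermat.Agent.S37.RInst88

open HahnSeries Module
open Fermat.Agent.S18.KGauss73

/-- The [BRIDGE] + [LATTICE] bundle. -/
structure BLat {L : Type*} [Field L] (A : ValuationSubring L) (F : Type*) [Field F] [Algebra L F]
    (Fbar : IntermediateField (IsLocalRing.ResidueField A)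
      (LaurentSeries (IsLocalRing.ResidueField A))) where
  /-- the Gauss valuation ring -/
  O : ValuationSubring F
  /-- its residue map -/
  ρ : O →+* LaurentSeries (IsLocalRing.ResidueField A)
  ker_ρ : ∀ x : O, ρ x = 0 ↔ x ∈ IsLocalRing.maximalIdeal O
  const_mem : ∀ c : L, algebraMap L F c ∈ O ↔ c ∈ A
  ρ_const : ∀ (c : A) (h : algebraMap L F (c : L) ∈ O),
    ρ ⟨_, h⟩ = HahnSeries.C (IsLocalRing.residue A c)
  hval : ∀ y : F, y ≠ 0 → ∃ c : L, O.valuation (algebraMap L F c) = O.valuation y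
  lattice : ∀ V : Submodule L F, Module.Finite L V →
    ∃ (r : ℕ) (e : Fin r → F) (he : ∀ i, e i ∈ O), r = finrank L V ∧ (∀ i, e i ∈ V) ∧
      LinearIndependent (IsLocalRing.ResidueField A) (fun i => ρ ⟨e i, he i⟩) ∧
      ∀ z ∈ V, z ∈ O → ∃ α : Fin r → L, (∀ i, α i ∈ A) ∧ z = ∑ i, α i • e i
  hrange : ∀ y : O, ρ y ∈ Fbar

namespace BLat

variable {L : Type*} [Field L] {A : ValuationSubring L} {F : Type*} [Field F] [Algebra L F]
  {Fbar : IntermediateField (IsLocalRing.ResidueField A)
    (LaurentSeries (IsLocalRing.ResidueField A))}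
  (B : BLat A F Fbar)

/-- the residue field of `A` -/
local notation "kk" => IsLocalRing.ResidueField A

/-- the Gauss valuation -/
abbrev w : Valuation F (ValuationSubring.ValueGroup B.O) := B.O.valuation

theorem w_le_one_iff (y : F) : B.w y ≤ 1 ↔ y ∈ B.O :=
  ValuationSubring.valuation_le_one_iff _ _

theorem w_lt_one_iff (y : F) (hy : y ∈ B.O) : B.w y < 1 ↔ B.ρ ⟨y, hy⟩ = 0 := by
  rw [B.ker_ρ]
  exact (ValuationSubring.valuation_lt_one_iff B.O ⟨y, hy⟩).symm

theorem w_const_le_one_iff (c : L) : B.w (algebraMap L F c) ≤ 1 ↔ c ∈ A := by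
  rw [B.w_le_one_iff, B.const_mem]

/-- the inclusion `{w ≤ 1} → O` (the two subrings have the same elements). -/
def toO : B.w.integer →+* B.O where
  toFun x := ⟨(x : F), (B.w_le_one_iff _).mp x.2⟩
  map_one' := rfl
  map_mul' _ _ := rfl
  map_zero' := rfl
  map_add' _ _ := rfl

@[simp] theorem coe_toO (x : B.w.integer) : ((B.toO x : B.O) : F) = (x : F) := rfl

/-- the reduction map with values in the type `↥Fbar`. -/
def redHom : B.w.integer →+* ↥Fbar :=
  (B.ρ.codRestrict Fbar B.hrange).comp B.toO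

theorem coe_redHom (x : B.w.integer) :
    ((B.redHom x : ↥Fbar) : LaurentSeries kk) = B.ρ (B.toO x) := rfl

/-- constants of `{w|_L ≤ 1}` lie in `A`. -/
theorem mem_A_of_mem_integer (c : (B.w.comap (algebraMap L F)).integer) :
    (c : L) ∈ A := (B.w_const_le_one_iff _).mp c.2

/-- the residue map on constants. -/
def resHom : (B.w.comap (algebraMap L F)).integer →+* kk :=
  (IsLocalRing.residue A).comp
    { toFun := fun c => (⟨(c : L), B.mem_A_of_mem_integer c⟩ : A)
      map_one' := rfl
      map_mul' := fun _ _ => rfl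
      map_zero' := rfl
      map_add' := fun _ _ => rfl }

theorem resHom_apply (c : (B.w.comap (algebraMap L F)).integer) :
    B.resHom c = IsLocalRing.residue A ⟨(c : L), B.mem_A_of_mem_integer c⟩ := rfl

theorem resHom_surjective : Function.Surjective B.resHom := by
  intro a
  obtain ⟨c, rfl⟩ := IsLocalRing.residue_surjective a
  exact ⟨⟨(c : L), (B.w_const_le_one_iff _).mpr c.2⟩, rfl⟩

/-- `ρ` of `α • e`. -/
theorem ρ_smul {α : L} (hα : α ∈ A) {e : F} (he : e ∈ B.O) (hmem : α • e ∈ B.O) :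
    B.ρ ⟨α • e, hmem⟩ = HahnSeries.C (IsLocalRing.residue A ⟨α, hα⟩) * B.ρ ⟨e, he⟩ := by
  have hc : algebraMap L F α ∈ B.O := (B.const_mem _).mpr hα
  have h1 : (⟨α • e, hmem⟩ : B.O) = (⟨algebraMap L F α, hc⟩ : B.O) * ⟨e, he⟩ := by
    apply Subtype.ext
    show α • e = algebraMap L F α * e
    rw [Algebra.smul_def]
  rw [h1, map_mul, B.ρ_const ⟨α, hα⟩ hc]

theorem smul_mem_O {α : L} (hα : α ∈ A) {e : F} (he : e ∈ B.O) : α • e ∈ B.O := by
  rw [Algebra.smul_def]
  exact B.O.mul_mem _ _ ((B.const_mem _).mpr hα) he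

/-- `ρ` of an `A`-linear combination of integral elements. -/
theorem ρ_sum_smul {r : ℕ} (α : Fin r → L) (hα : ∀ i, α i ∈ A) (e : Fin r → F)
    (he : ∀ i, e i ∈ B.O) (hmem : (∑ i, α i • e i) ∈ B.O) :
    B.ρ ⟨∑ i, α i • e i, hmem⟩ =
      ∑ i, HahnSeries.C (IsLocalRing.residue A ⟨α i, hα i⟩) * B.ρ ⟨e i, he i⟩ := by
  classical
  have key : ∀ s : Finset (Fin r), ∃ h : (∑ i ∈ s, α i • e i) ∈ B.O,
      B.ρ ⟨∑ i ∈ s, α i • e i, h⟩ =
        ∑ i ∈ s, HahnSeries.C (IsLocalRing.residue A ⟨α i, hα i⟩) * B.ρ ⟨e i, he i⟩ := by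
    intro s
    induction s using Finset.induction_on with
    | empty =>
      have h0 : (∑ i ∈ (∅ : Finset (Fin r)), α i • e i) ∈ B.O := by
        rw [Finset.sum_empty]; exact B.O.zero_mem
      refine ⟨h0, ?_⟩
      have : (⟨∑ i ∈ (∅ : Finset (Fin r)), α i • e i, h0⟩ : B.O) = 0 := by
        apply Subtype.ext
        show ∑ i ∈ (∅ : Finset (Fin r)), α i • e i = 0
        exact Finset.sum_empty
      rw [this, map_zero, Finset.sum_empty]
    | insert a s ha ih =>
      obtain ⟨hs, ihs⟩ := ih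
      have h1 : α a • e a ∈ B.O := B.smul_mem_O (hα a) (he a)
      have hmem' : (∑ i ∈ insert a s, α i • e i) ∈ B.O := by
        rw [Finset.sum_insert ha]; exact B.O.add_mem _ _ h1 hs
      refine ⟨hmem', ?_⟩
      have h2 : (⟨∑ i ∈ insert a s, α i • e i, hmem'⟩ : B.O) =
          ⟨α a • e a, h1⟩ + ⟨∑ i ∈ s, α i • e i, hs⟩ := by
        apply Subtype.ext
        show ∑ i ∈ insert a s, α i • e i = α a • e a + ∑ i ∈ s, α i • e i
        rw [Finset.sum_insert ha]
      rw [h2, map_add, ihs, B.ρ_smul (hα a) (he a) h1, Finset.sum_insert ha]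
  obtain ⟨h, hk⟩ := key Finset.univ
  exact hk

/-- A family of integral elements with `k`-independent reductions is `L`-independent. -/
theorem linearIndependent_of_ρ {r : ℕ} (e : Fin r → F) (he : ∀ i, e i ∈ B.O)
    (hli : LinearIndependent kk (fun i => B.ρ ⟨e i, he i⟩)) :
    LinearIndependent L e := by
  classical
  rw [Fintype.linearIndependent_iff]
  intro c hc
  by_contra hne
  push Not at hne
  obtain ⟨j, hj⟩ := hne
  -- a coefficient of maximal valuation
  obtain ⟨j₀, -, hj₀⟩ := Finset.exists_max_image Finset.univ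
    (fun i => A.valuation (c i)) ⟨j, Finset.mem_univ _⟩
  have hc0 : c j₀ ≠ 0 := by
    intro h
    have h1 := hj₀ j (Finset.mem_univ _)
    rw [h, map_zero] at h1
    exact hj ((map_eq_zero _).mp (le_antisymm h1 zero_le))
  set d : Fin r → L := fun i => (c j₀)⁻¹ * c i with hd
  have hdA : ∀ i, d i ∈ A := by
    intro i
    rw [← ValuationSubring.valuation_le_one_iff, hd, map_mul, map_inv₀]
    have hv : A.valuation (c j₀) ≠ 0 := (map_ne_zero _).mpr hc0
    calc (A.valuation (c j₀))⁻¹ * A.valuation (c i)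
        ≤ (A.valuation (c j₀))⁻¹ * A.valuation (c j₀) := by
          gcongr
          exact hj₀ i (Finset.mem_univ _)
      _ = 1 := inv_mul_cancel₀ hv
  have hsum : ∑ i, d i • e i = 0 := by
    have : ∑ i, d i • e i = (c j₀)⁻¹ • ∑ i, c i • e i := by
      rw [Finset.smul_sum]
      exact Finset.sum_congr rfl fun i _ => by rw [hd, mul_smul]
    rw [this, hc, smul_zero]
  have hmem : (∑ i, d i • e i) ∈ B.O := by rw [hsum]; exact B.O.zero_mem
  have h1 := B.ρ_sum_smul d hdA e he hmem
  have h0 : B.ρ ⟨∑ i, d i • e i, hmem⟩ = 0 := by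
    have : (⟨∑ i, d i • e i, hmem⟩ : B.O) = 0 := Subtype.ext hsum
    rw [this, map_zero]
  rw [h0] at h1
  have h2 : ∑ i, IsLocalRing.residue A ⟨d i, hdA i⟩ • B.ρ ⟨e i, he i⟩ = 0 := by
    rw [h1]
    refine Finset.sum_congr rfl fun i _ => ?_
    rw [HahnSeries.C_mul_eq_smul]
  have h3 := Fintype.linearIndependent_iff.mp hli _ h2 j₀
  have hdj : d j₀ = 1 := by rw [hd]; exact inv_mul_cancel₀ hc0
  have h4 : (⟨d j₀, hdA j₀⟩ : A) = 1 := Subtype.ext hdj
  rw [h4, map_one] at h3
  exact one_ne_zero h3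

/-- **The lattice lemma in `GaussData` form.** -/
theorem lattice_gauss (V : Submodule L F) (hV : Module.Finite L V) :
    ∃ (n : ℕ) (g : Fin n → F),
      (∀ j, g j ∈ V) ∧ (∀ j, B.w (g j) ≤ 1) ∧
      (∀ y ∈ V, ∃ c : Fin n → L, y = ∑ j, c j • g j) ∧
      ∀ (c : Fin n → L) (j : Fin n),
        B.w (algebraMap L F (c j)) ≤ B.w (∑ i, c i • g i) := by
  classical
  obtain ⟨r, e, he, hr, heV, hli, hcomb⟩ := B.lattice V hV
  have hindep : LinearIndependent L e := B.linearIndependent_of_ρ e he hli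
  -- `e` spans `V`
  have hspan : ∀ y ∈ V, ∃ c : Fin r → L, y = ∑ j, c j • e j := by
    intro y hy
    let e' : Fin r → V := fun i => ⟨e i, heV i⟩
    have hindep' : LinearIndependent L e' := by
      apply LinearIndependent.of_comp V.subtype
      exact hindep
    have hcard : Fintype.card (Fin r) = finrank L V := by rw [Fintype.card_fin, hr]
    have htop : Submodule.span L (Set.range e') = ⊤ :=
      hindep'.span_eq_top_of_card_eq_finrank' hcard
    have hmem : (⟨y, hy⟩ : V) ∈ Submodule.span L (Set.range e') := by rw [htop]; trivial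
    obtain ⟨c, hc⟩ := (Submodule.mem_span_range_iff_exists_fun L).mp hmem
    refine ⟨c, ?_⟩
    have h2 := congrArg (V.subtype) hc
    rw [map_sum] at h2
    rw [show y = V.subtype ⟨y, hy⟩ from rfl, ← h2]
    refine Finset.sum_congr rfl fun j _ => ?_
    rw [map_smul]
    rfl
  refine ⟨r, e, heV, fun j => (B.w_le_one_iff _).mpr (he j), hspan, ?_⟩
  -- orthonormality
  intro c j
  set y : F := ∑ i, c i • e i with hy
  by_cases hy0 : y = 0
  · have hc : ∀ i, c i = 0 := Fintype.linearIndependent_iff.mp hindep c hy0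
    rw [hc j, map_zero, map_zero]
    exact zero_le
  obtain ⟨d, hd⟩ := B.hval y hy0
  have hd0 : d ≠ 0 := by
    rintro rfl
    rw [map_zero, map_zero] at hd
    exact hy0 ((map_eq_zero _).mp hd.symm)
  have hdF : algebraMap L F d ≠ 0 := (_root_.map_ne_zero _).mpr hd0
  have hwd : B.w (algebraMap L F d) ≠ 0 := (map_ne_zero _).mpr hdF
  -- `z = y / d` is a unit of `O`
  set z : F := d⁻¹ • y with hz
  have hwz : B.w z = 1 := by
    rw [hz, Algebra.smul_def, map_mul, map_inv₀, map_inv₀, ← hd]
    exact inv_mul_cancel₀ hwd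
  have hzO : z ∈ B.O := (B.w_le_one_iff z).mp hwz.le
  have hyV : y ∈ V := Submodule.sum_mem _ fun i _ => Submodule.smul_mem _ _ (heV i)
  have hzV : z ∈ V := Submodule.smul_mem _ _ hyV
  obtain ⟨α, hαA, hzα⟩ := hcomb z hzV hzO
  -- compare coefficients
  have hz' : z = ∑ i, (d⁻¹ * c i) • e i := by
    rw [hz, hy, Finset.smul_sum]
    exact Finset.sum_congr rfl fun i _ => by rw [mul_smul]
  have hcoef : ∀ i, d⁻¹ * c i = α i := by
    have h0 : ∑ i, (d⁻¹ * c i - α i) • e i = 0 := by
      simp only [sub_smul, Finset.sum_sub_distrib]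
      rw [← hz', ← hzα, sub_self]
    intro i
    have := Fintype.linearIndependent_iff.mp hindep _ h0 i
    exact sub_eq_zero.mp this
  have hcj : c j = d * α j := by rw [← hcoef j, mul_inv_cancel_left₀ hd0]
  rw [hcj, map_mul, map_mul, ← hd]
  have h1 : B.w (algebraMap L F (α j)) ≤ 1 := (B.w_const_le_one_iff _).mpr (hαA j)
  calc B.w (algebraMap L F d) * B.w (algebraMap L F (α j))
      ≤ B.w (algebraMap L F d) * 1 := by gcongr
    _ = B.w (algebraMap L F d) := mul_one _

/-- **`GaussData`** from the [BRIDGE] + [LATTICE] bundle. -/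
def gaussData : GaussData (L := L) B.w kk ↥Fbar where
  red := B.redHom
  red_eq_zero := by
    intro x
    have hx : (x : F) ∈ B.O := (B.w_le_one_iff _).mp x.2
    rw [B.w_lt_one_iff _ hx]
    constructor
    · intro h
      have := congrArg Subtype.val h
      exact this
    · intro h
      apply Subtype.ext
      exact h
  res := B.resHom
  res_surj := B.resHom_surjective
  red_algebraMap := by
    intro c
    apply Subtype.ext
    have hcA : (c : L) ∈ A := B.mem_A_of_mem_integer c
    have hcO : algebraMap L F (c : L) ∈ B.O := (B.const_mem _).mpr hcA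
    show B.ρ ⟨algebraMap L F (c : L), _⟩ = _
    rw [B.ρ_const ⟨(c : L), hcA⟩ hcO, IntermediateField.coe_algebraMap_apply, B.resHom_apply,
      ModularCurve.algebraMap_laurentSeries_eq_single, HahnSeries.C_apply]
  lattice := B.lattice_gauss

theorem gaussData_red_coe (x : B.w.integer) :
    ((B.gaussData.red x : ↥Fbar) : LaurentSeries kk) =
      B.ρ ⟨(x : F), (B.w_le_one_iff _).mp x.2⟩ := rfl

theorem gaussData_redF_coe {y : F} (hy : y ∈ B.O) :
    ((B.gaussData.redF y : ↥Fbar) : LaurentSeries kk) = B.ρ ⟨y, hy⟩ := by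
  rw [GaussData.redF_of_le _ ((B.w_le_one_iff y).mpr hy)]
  rfl

end BLat

end Fermat.Agent.S37.RInst88

end
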