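/-
S37 / [R]-INST (helper88): the CONCRETE Deuring reduction at a level `M`.

From ONE frame `S : BridgeKernel15.Frame A ι` of `F_M` and EXACTLY the named inputs of
`LevelAsm29.nonempty_levelData_of_frame` (range of the residue map, degree of the special fibre,
genus inequality, lattice lemma) we instantiate the abstract Deuring reduction `Deuring43` and get

* `exists_reduction_of_frame` : a place map `r : Place ℚ̄ F_M → Place k F̄_M` which is a place
  reduction in the sense of the Prelude (`IsPlaceReductionAlong A (residue A) M r`) and satisfies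
  `red (L(D) ∩ O) = L̄(r_* D)` for `deg D ≥ c`;
* `reductionInputs_of_frame` : `ReductionInputsModL A M` (with helper57's
  `IntFracInst57.principalGeneratedByIntegral`).
-/
import Fermat.Agent.S37.RInst88.GaussOfBridge
import Fermat.Agent.S37.Deuring43
import Fermat.Agent.S37.Anchor51
import Fermat.Agent.S37.IntFracInst57
import Fermat.Agent.S18.LevelAsm29
import Fermat.Agent.S18.FFInstDW30
import Fermat.Agent.S18.FFInst5

set_option autoImplicit false
set_option linter.unusedSectionVars false
set_option linter.unusedVariables false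
set_option linter.style.haveILetI false
set_option synthInstance.maxHeartbeats 400000
set_option maxHeartbeats 1600000

open ModularCurve AlgebraicCurve HahnSeries IntermediateField Polynomial Module

noncomputable section

namespace Fermat.Agent.S37.RInst88

open Fermat.Agent.S18 Fermat.Agent.S18.Spine33 Fermat.Agent.S18.Bridge28 Fermat.Agent.S18.BridgeKernel15
open Fermat.Agent.S18.LevelInst29 Fermat.Agent.S18.LevelAsm29
open Fermat.Agent.S18.Riemann12 (LSpace FFFacts IsRiemannGenus gR divOf)
open Fermat.Agent.S18.KGauss73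
open Fermat.Agent.S20 Fermat.Agent.S20.T1 Fermat.Agent.S24

variable (M : ℕ) [NeZero M] (A : ValuationSubring Kb) [IsAlgClosed (kA A)]
  {ι : Type*} [Fintype ι] (S : Frame A ι) (hF : S.F = modularFunctionFieldBar M)

/-- the [BRIDGE] + [LATTICE] bundle of a frame of `F_M`. -/
@[reducible] def blat
    (hrange : ∀ y : OF' S (modularFunctionFieldBar M) hF,
      rhoF' S (modularFunctionFieldBar M) hF y ∈ modularFunctionFieldFullC (kA A) M)
    (hlattice : LatticeProp M A S hF) :
    BLat A (FK M) (modularFunctionFieldFullC (kA A) M) where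
  O := OF' S (modularFunctionFieldBar M) hF
  ρ := rhoF' S (modularFunctionFieldBar M) hF
  ker_ρ := ker_rhoF' S (modularFunctionFieldBar M) hF
  const_mem := const_mem_OF' S (modularFunctionFieldBar M) hF
  ρ_const := rhoF'_const S (modularFunctionFieldBar M) hF
  hval := hval_OF' S (modularFunctionFieldBar M) hF
  lattice := hlattice
  hrange := hrange

/-- the Gauss data of a frame of `F_M`. -/
def gaussM
    (hrange : ∀ y : OF' S (modularFunctionFieldBar M) hF,
      rhoF' S (modularFunctionFieldBar M) hF y ∈ modularFunctionFieldFullC (kA A) M)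
    (hlattice : LatticeProp M A S hF) :
    GaussData (L := Kb) (OF' S (modularFunctionFieldBar M) hF).valuation (kA A)
      (FC (kA A) M) :=
  (blat M A S hF hrange hlattice).gaussData

theorem gaussM_red_coe
    (hrange : ∀ y : OF' S (modularFunctionFieldBar M) hF,
      rhoF' S (modularFunctionFieldBar M) hF y ∈ modularFunctionFieldFullC (kA A) M)
    (hlattice : LatticeProp M A S hF) (y : FK M)
    (h : (OF' S (modularFunctionFieldBar M) hF).valuation y ≤ 1) :
    (((gaussM M A S hF hrange hlattice).red ⟨y, h⟩ : FC (kA A) M) :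
        LaurentSeries (kA A)) =
      rhoF' S (modularFunctionFieldBar M) hF
        ⟨y, ((OF' S (modularFunctionFieldBar M) hF).valuation_le_one_iff y).1 h⟩ := rfl

theorem gaussM_redF_coe
    (hrange : ∀ y : OF' S (modularFunctionFieldBar M) hF,
      rhoF' S (modularFunctionFieldBar M) hF y ∈ modularFunctionFieldFullC (kA A) M)
    (hlattice : LatticeProp M A S hF) {y : FK M}
    (hy : y ∈ OF' S (modularFunctionFieldBar M) hF) :
    (((gaussM M A S hF hrange hlattice).redF y : FC (kA A) M) :
        LaurentSeries (kA A)) =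
      rhoF' S (modularFunctionFieldBar M) hF ⟨y, hy⟩ :=
  (blat M A S hF hrange hlattice).gaussData_redF_coe hy

/-! ### the function-field packages on both fibres -/

section Packages

/-- `FFFacts` on the generic fibre. -/
theorem ffFacts_FM : haveI := LevelFF12.hasPD M; FFFacts Kb (FK M) := by
  haveI := LevelFF12.hasPD M
  haveI := LevelFF12.hfin M
  exact Fermat.Agent.S18.FFInst5.ffFacts (jF M) (LevelFF12.htr M)

/-- `FFFacts` on the special fibre. -/
theorem ffFacts_FC (k : Type) [Field k] [IsAlgClosed k] (hM : (M : k) ≠ 0) :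
    haveI := Fermat.Agent.S18.FFInstDW30.hasPrincipalDivisors_fullC k M hM
    FFFacts k (FC k M) := by
  haveI := Fermat.Agent.S18.FFInstDW30.hasPrincipalDivisors_fullC k M hM
  haveI := Fermat.Agent.S18.FFInst30.finiteDimensional_tC k M hM
  exact Fermat.Agent.S18.FFInst5.ffFacts (Fermat.Agent.S18.FFInst30.tC k M)
    (Fermat.Agent.S18.FFInst30.transcendental_tC k M)

end Packages

/-! ### the Deuring reduction at level `M` -/

section MainThm

open Fermat.Agent.S37

/-- **[R]-INST**: the place reduction at level `M`, from one frame and the four named inputs of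
`LevelAsm29.nonempty_levelData_of_frame`. -/
theorem exists_reduction_of_frame
    (hj : S.j = ((jF M : FK M) : LaurentSeries Kb))
    (ht : S.t = jqModC (kA A))
    (hM : (M : kA A) ≠ 0)
    (hrange : ∀ y : OF' S (modularFunctionFieldBar M) hF,
      rhoF' S (modularFunctionFieldBar M) hF y ∈ modularFunctionFieldFullC (kA A) M)
    (hdeg : DegProp M A)
    (hgenus : GenusProp M A hM)
    (hlattice : LatticeProp M A S hF) :
    ∃ (r : Place Kb (FK M) → Place (kA A) (FC (kA A) M)) (c : ℤ),
      IsPlaceReductionAlong A (IsLocalRing.residue A) M r ∧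
      ∀ D : Divisor Kb (FK M), c ≤ Divisor.degree D →
        Deuring43.redSpace (gaussM M A S hF hrange hlattice) D =
          LSpace (Finsupp.mapDomain r D) := by
  classical
  haveI hPDL := LevelFF12.hasPD M
  haveI hPDk := FFInstDW30.hasPrincipalDivisors_fullC (kA A) M hM
  set G := gaussM M A S hF hrange hlattice with hGdef
  -- the base function
  have hjF' : Anchor51.jF' S (modularFunctionFieldBar M) hF = jF M := Subtype.ext hj
  haveI hfinL : FiniteDimensional Kb⟮Anchor51.jF' S (modularFunctionFieldBar M) hF⟯ (FK M) := by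
    rw [hjF']; exact LevelFF12.hfin M
  -- the pole divisor on the special fibre
  obtain ⟨Eb, hEb, hEbdeg⟩ := FFInstDW30.exists_poleDivisor_fullC (kA A) M hM
  have hredj : G.redF (Anchor51.jF' S (modularFunctionFieldBar M) hF) = FFInst30.tC (kA A) M := by
    apply Subtype.ext
    rw [hGdef, gaussM_redF_coe M A S hF hrange hlattice
      (Anchor51.jF'_mem S (modularFunctionFieldBar M) hF), rhoF'_apply]
    exact ht
  have hint := Anchor51.hint_of_frame S (modularFunctionFieldBar M) hF
    (modularFunctionFieldFullC (kA A) M).val G (fun y h => rfl) (LevelFF12.E M) Eb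
    (fun P => by rw [LevelFF12.E_apply, hjF']) (fun Q => by rw [hEb Q, hredj])
  -- degrees
  have hdegE : Divisor.degree (LevelFF12.E M) = (dedekindPsi M : ℤ) := LevelFF12.deg_E M
  have hdegEb : Divisor.degree Eb = (dedekindPsi M : ℤ) := by
    rw [hEbdeg]
    letI := algRatC (kA A) M
    have h1 : finrank (RatFunc (kA A)) (FC (kA A) M) = dedekindPsi M := hdeg
    have h2 : finrank (RatFunc (kA A)) (FC (kA A) M) =
        finrank ↥((kA A)⟮SepInst72.xbar (kA A) M⟯) (FC (kA A) M) :=
      T1Setup.finrank_eq (SepInst72.transcendental_xbar (kA A) M)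
    have h3 : finrank ↥((kA A)⟮FFInst30.tC (kA A) M⟯) (FC (kA A) M) = dedekindPsi M := by
      rw [← h1, h2]; rfl
    exact_mod_cast h3
  -- the genus inequality
  have hle : LevelFF12.γ M ≤ gR (kA A) (FC (kA A) M) := by
    letI := algRatC (kA A) M
    letI := algPolyC (kA A) M
    haveI := towerKC (kA A) M
    haveI := towerPolyC (kA A) M
    haveI := finiteRatC (kA A) M hM
    haveI := sepRatC (kA A) M hM
    rw [DW63.gR_eq]
    show ((LevelFF12.γnat M : ℕ) : ℤ) ≤ _
    exact_mod_cast hgenus
  have hsetup := Deuring43.ReductionSetup.of_genus_le (G := G) (ffFacts_FM M)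
    (ffFacts_FC M (kA A) hM) (LevelFF12.isRiemannGenus M)
    (FFInstDW30.isRiemannGenus_fullC (kA A) M hM) hle (LevelFF12.deg_E_pos M)
    (hdegEb.trans hdegE.symm) hint
  obtain ⟨r, c, hrdeg, hsurj, hcons⟩ := hsetup.exists_reduction (LevelFF12.deg_eq_one M)
  refine ⟨r, c, ?_, fun D hD => (hsurj D hD).2⟩
  refine IntFrac57.isPlaceReductionAlong_of_conservation A r hrdeg ?_
  intro u hu huk hune D hD Q
  set f : FK M := ⟨(u : LaurentSeries Kb), hu⟩ with hfdef
  have hfO : f ∈ OF' S (modularFunctionFieldBar M) hF := u.2
  have hρf : rhoF' S (modularFunctionFieldBar M) hF ⟨f, hfO⟩ = rho A u := rfl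
  have hwf : (OF' S (modularFunctionFieldBar M) hF).valuation f = 1 := by
    refine le_antisymm (((OF' S (modularFunctionFieldBar M) hF).valuation_le_one_iff f).2 hfO) ?_
    rw [← not_lt]
    intro hlt
    have := ((blat M A S hF hrange hlattice).w_lt_one_iff f hfO).1 hlt
    exact hune (hρf ▸ this)
  have hredf : G.redF f = ⟨rho A u, huk⟩ := by
    apply Subtype.ext
    rw [hGdef, gaussM_redF_coe M A S hF hrange hlattice hfO, hρf]
  have h := Deuring43.conservation_apply hcons hwf D hD Q
  rw [h, hredf]

/-- **[R]-INST**, Prelude form: `ReductionInputsModL A M` from one frame and the four named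
inputs of `LevelAsm29.nonempty_levelData_of_frame`. -/
theorem reductionInputs_of_frame
    (hj : S.j = ((jF M : FK M) : LaurentSeries Kb))
    (ht : S.t = jqModC (kA A))
    (hM : (M : kA A) ≠ 0)
    (hrange : ∀ y : OF' S (modularFunctionFieldBar M) hF,
      rhoF' S (modularFunctionFieldBar M) hF y ∈ modularFunctionFieldFullC (kA A) M)
    (hdeg : DegProp M A)
    (hgenus : GenusProp M A hM)
    (hlattice : LatticeProp M A S hF) :
    ReductionInputsModL A M := by
  obtain ⟨r, c, hr, -⟩ :=
    exists_reduction_of_frame M A S hF hj ht hM hrange hdeg hgenus hlattice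
  exact ⟨r, hr, IntFracInst57.principalGeneratedByIntegral A M hM⟩

end MainThm

end Fermat.Agent.S37.RInst88

end
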