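/-
S37 / [R]-INST (helper88), final form: at every GOOD level `M` prime to `ℓ` and every valuation
subring `A` of `ℚ̄` over `ℓ`, the reduction inputs of the Prelude hold UNCONDITIONALLY:

* `exists_reduction` : a place map `r : Place ℚ̄ F_M → Place k F̄_M` with
  `IsPlaceReductionAlong A (residue A) M r` and `red (L(D) ∩ O) = L̄(r_* D)` for `deg D ≥ c`
  (`O` = the Gauss ring of helper28's concrete frame);
* `reductionInputs` : `ReductionInputsModL A M`.

Inputs: `RInst88.exists_reduction_of_frame` (abstract Deuring reduction `Deuring43` at the concrete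
frame) and the S18 level package (`LevelFinal29.{hj_frame, ht_frame, hrange_frame, degProp}`,
`LevelDone33.{genusProp, latticeM}`).
-/
import Fermat.Agent.S37.RInst88.Main
import Fermat.Agent.S18.LevelDone33

set_option autoImplicit false
set_option linter.unusedSectionVars false
set_option linter.unusedVariables false
set_option linter.style.haveILetI false
set_option synthInstance.maxHeartbeats 400000
set_option maxHeartbeats 1600000

open ModularCurve AlgebraicCurve HahnSeries IntermediateField Polynomial Module

noncomputable section

namespace Fermat.Agent.S37.RInst88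

open Fermat.Agent.S18 Fermat.Agent.S18.Spine33 Fermat.Agent.S18.Bridge28 Fermat.Agent.S18.BridgeKernel15
open Fermat.Agent.S18.LevelInst29 Fermat.Agent.S18.LevelAsm29 Fermat.Agent.S18.LevelFinal29
open Fermat.Agent.S18.Riemann12 (LSpace)

/-- **[R]-INST, strong form**: the Deuring reduction at a good level. -/
theorem exists_reduction (M ℓ : ℕ) [NeZero M] [Fact ℓ.Prime] (hℓ : ¬ ℓ ∣ M)
    (hgood : GoodLevel ℓ M) (A : ValuationSubring Kb) (hA : A.LiesOverPrime ℓ) :
    haveI := ValRing25.residueField_isAlgClosed A
    ∃ (r : Place Kb (FK M) → Place (kA A) (FC (kA A) M)) (c : ℤ),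
      IsPlaceReductionAlong A (IsLocalRing.residue A) M r ∧
      ∀ D : Divisor Kb (FK M), c ≤ Divisor.degree D →
        Deuring43.redSpace
          (gaussM M A (frame A M (natCast_residueField_ne_zero A hA hℓ))
            (frame_F A M (natCast_residueField_ne_zero A hA hℓ))
            (hrange_frame A M (natCast_residueField_ne_zero A hA hℓ))
            (LevelDone33.latticeM A M hA hℓ)) D =
          LSpace (Finsupp.mapDomain r D) := by
  haveI := ValRing25.residueField_isAlgClosed A
  have hMk := natCast_residueField_ne_zero A hA hℓ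
  exact exists_reduction_of_frame M A (frame A M hMk) (frame_F A M hMk) (hj_frame A M hMk)
    (ht_frame A M hMk) hMk (hrange_frame A M hMk) (degProp A M hMk)
    (LevelDone33.genusProp A M hA hℓ hgood) (LevelDone33.latticeM A M hA hℓ)

/-- **[R]-INST**: `ReductionInputsModL A M` at every good level `M` prime to `ℓ`, `A | ℓ`. -/
theorem reductionInputs (M ℓ : ℕ) [NeZero M] [Fact ℓ.Prime] (hℓ : ¬ ℓ ∣ M)
    (hgood : GoodLevel ℓ M) (A : ValuationSubring Kb) (hA : A.LiesOverPrime ℓ) :
    ReductionInputsModL A M := by
  haveI := ValRing25.residueField_isAlgClosed A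
  have hMk := natCast_residueField_ne_zero A hA hℓ
  exact reductionInputs_of_frame M A (frame A M hMk) (frame_F A M hMk) (hj_frame A M hMk)
    (ht_frame A M hMk) hMk (hrange_frame A M hMk) (degProp A M hMk)
    (LevelDone33.genusProp A M hA hℓ hgood) (LevelDone33.latticeM A M hA hℓ)

end Fermat.Agent.S37.RInst88

end
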